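import Fermat.Agent.Jac.ModGlue.Local

/-!
# Gluing sheaves of modules

Sheaves `P a` supported on the members `V a` of an open cover, with compatible isomorphisms on the
overlaps, glue: the glued sheaf consists of the compatible families of sections.
-/

set_option autoImplicit false

universe u

noncomputable section

open CategoryTheory TopologicalSpace AlgebraicGeometry

namespace Fermat.Agent.Jac.ModGlue

/-- Sheaves supported on the members of a cover, identified on overlaps. -/
structure GlueDatum (X : Scheme.{u}) where
  /-- the indices -/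
  ι : Type u
  /-- the cover -/
  V : ι → X.Opens
  cover : ⨆ a, V a = ⊤
  /-- the sheaves -/
  P : ι → X.Modules
  supp : ∀ (a : ι) (W : X.Opens), Function.Bijective (mres (P a) (inf_le_left : W ⊓ V a ≤ W))
  /-- the identifications -/
  θ : ∀ a b, LocalIso (V a ⊓ V b) (P a) (P b)
  θ_self : ∀ a, (θ a a).hom = LocalHom.id _ _
  θ_trans : ∀ a b c (W : X.Opens) (hab : W ≤ V a ⊓ V b) (hbc : W ≤ V b ⊓ V c) (hac : W ≤ V a ⊓ V c)
    (s : Γ(P a, W)), (θ b c).hom.app W hbc ((θ a b).hom.app W hab s) = (θ a c).hom.app W hac s

namespace GlueDatum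

variable {X : Scheme.{u}} (D : GlueDatum X)

theorem pair_le_left (W : X.Opens) (a b : D.ι) : W ⊓ (D.V a ⊓ D.V b) ≤ W := inf_le_left

/-- The compatibility of a family of sections. -/
def Compat (W : X.Opens) (s : ∀ a, Γ(D.P a, W)) : Prop :=
  ∀ a b, (D.θ a b).hom.app (W ⊓ (D.V a ⊓ D.V b)) inf_le_right
    (mres (D.P a) (D.pair_le_left W a b) (s a)) = mres (D.P b) (D.pair_le_left W a b) (s b)

/-- The compatible families over `W`. -/
def sections (W : X.Opens) : Submodule Γ(X, W) (∀ a, Γ(D.P a, W)) where
  carrier := {s | D.Compat W s}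
  zero_mem' a b := by simp
  add_mem' {s t} hs ht a b := by
    simp only [Pi.add_apply, map_add]
    rw [hs a b, ht a b]
  smul_mem' r s hs a b := by
    simp only [Pi.smul_apply]
    rw [mres_smul, mres_smul, LocalHom.map_smul, hs a b]

/-- Restriction of compatible families. -/
def sectionsRes {W' W : X.Opens} (h : W' ≤ W) : D.sections W →+ D.sections W' :=
  AddMonoidHom.mk'
    (fun s => ⟨fun a => mres (D.P a) h (s.1 a), fun a b => by
      rw [mres_mres, mres_mres, ← mres_mres (D.P a) (inf_le_inf_right _ h) (D.pair_le_left W a b),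
        LocalHom.naturality _ _ _ (inf_le_inf_right _ h) inf_le_right, s.2 a b, mres_mres]⟩)
    fun s t => Subtype.ext (funext fun a => map_add (mres (D.P a) h) _ _)

/-- The presheaf of compatible families. -/
def presheafAb : TopCat.Presheaf Ab X where
  obj W := AddCommGrpCat.of (D.sections W.unop)
  map i := AddCommGrpCat.ofHom (D.sectionsRes (leOfHom i.unop))
  map_id W := by
    ext s a; exact mres_self (D.P a) le_rfl _
  map_comp i j := by
    ext s a; exact (mres_mres (D.P a) _ _ _).symm

/-- The module structure on compatible families. -/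
@[reducible]
def presheafAbModule (W : (Opens X)ᵒᵖ) : Module (X.ringCatSheaf.obj.obj W) (D.presheafAb.obj W) :=
  (inferInstance : Module Γ(X, W.unop) (D.sections W.unop))

/-- The presheaf of modules of compatible families. -/
def presheafMod : X.PresheafOfModules :=
  letI := D.presheafAbModule
  PresheafOfModules.ofPresheaf D.presheafAb fun {W W'} i r s =>
    Subtype.ext (funext fun a => by
      let s' : D.sections W.unop := s
      let r' : Γ(X, W.unop) := r
      exact mres_smul (D.P a) (leOfHom i.unop) r' (s'.1 a))

theorem isSheaf_presheafAb : D.presheafAb.IsSheaf := by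
  rw [TopCat.Presheaf.isSheaf_iff_isSheafUniqueGluing]
  intro ι U sf hsf
  have hc : ∀ a, ∃ t : Γ(D.P a, iSup U), ∀ i, mres (D.P a) (le_iSup U i) t = (sf i).1 a := fun a =>
    exists_glue (D.P a) U (le_iSup U) le_rfl (fun i => (sf i).1 a) fun i j =>
      congrFun (congrArg Subtype.val (hsf i j)) a
  choose t ht using hc
  have hcompat : D.Compat (iSup U) t := fun a b =>
    ModGlue.eq_of_cover (D.P b) (fun i => U i ⊓ (D.V a ⊓ D.V b))
      (fun i => inf_le_inf_right _ (le_iSup U i))
      (le_of_eq (iSup_inf_eq U _)) _ _ fun i => by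
        rw [← LocalHom.naturality _ _ _ (inf_le_inf_right _ (le_iSup U i)) inf_le_right, mres_mres,
          mres_mres, ← mres_mres (D.P a) (D.pair_le_left (U i) a b) (le_iSup U i),
          ← mres_mres (D.P b) (D.pair_le_left (U i) a b) (le_iSup U i), ht, ht]
        exact (sf i).2 a b
  refine ⟨⟨t, hcompat⟩, fun i => Subtype.ext (funext fun a => ht a i), fun s hs =>
    Subtype.ext (funext fun a => ?_)⟩
  exact ModGlue.eq_of_cover (D.P a) U (le_iSup U) le_rfl _ _ fun i =>
    (congrFun (congrArg Subtype.val (hs i)) a).trans (ht a i).symm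

/-- The glued sheaf. -/
def glued : X.Modules where
  val := D.presheafMod
  isSheaf := D.isSheaf_presheafAb

/-- A section of the glued sheaf as a family. -/
def family {W : X.Opens} (s : Γ(D.glued, W)) : D.sections W := s

/-- A family as a section of the glued sheaf. -/
def ofFamily {W : X.Opens} (s : D.sections W) : Γ(D.glued, W) := s

/-- The component at `a`. -/
def proj (V : X.Opens) (a : D.ι) : LocalHom V D.glued (D.P a) where
  app _ _ := AddMonoidHom.mk' (fun s => (D.family s).1 a) fun _ _ => rfl
  map_smul _ _ _ _ := rfl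
  naturality _ _ _ _ _ := rfl

/-- Over a member of the cover the projection of the glued sheaf is bijective. -/
theorem proj_bijective (a : D.ι) (W : X.Opens) (hW : W ≤ D.V a) :
    Function.Bijective ((D.proj (D.V a) a).app W hW) := by
  constructor
  · intro s t hst
    refine Subtype.ext (funext fun b => (D.supp b W).1 ?_)
    have hWb : W ⊓ D.V b ≤ W ⊓ (D.V a ⊓ D.V b) :=
      le_inf inf_le_left (inf_le_inf_right _ hW)
    have h := congrArg (mres (D.P b) hWb)
      (((D.family s).2 a b).symm.trans
        ((congrArg (fun z => (D.θ a b).hom.app _ inf_le_right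
          (mres (D.P a) (D.pair_le_left W a b) z)) hst).trans ((D.family t).2 a b)))
    rwa [mres_mres, mres_mres] at h
  · intro x
    choose f hf using fun b => (D.supp b W).2
      ((D.θ a b).hom.app (W ⊓ D.V b) (inf_le_inf_right _ hW) (mres (D.P a) inf_le_left x))
    have hcompat : D.Compat W f := by
      intro b c
      have e1 : W ⊓ (D.V b ⊓ D.V c) ≤ W ⊓ D.V b := inf_le_inf_left _ inf_le_left
      have e2 : W ⊓ (D.V b ⊓ D.V c) ≤ W ⊓ D.V c := inf_le_inf_left _ inf_le_right
      rw [← mres_mres (D.P b) e1 inf_le_left, hf b, ← mres_mres (D.P c) e2 inf_le_left, hf c,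
        ← LocalHom.naturality _ _ _ e1 (inf_le_inf_right _ hW),
        ← LocalHom.naturality _ _ _ e2 (inf_le_inf_right _ hW), mres_mres, mres_mres]
      exact D.θ_trans a b c _ _ _ _ _
    refine ⟨D.ofFamily ⟨f, hcompat⟩, (D.supp a W).1 ?_⟩
    show mres (D.P a) inf_le_left (f a) = _
    rw [hf a, D.θ_self]
    rfl

/-- The glued sheaf is `P a` on `V a`. -/
def projIso (a : D.ι) : LocalIso (D.V a) D.glued (D.P a) where
  hom := D.proj (D.V a) a
  inv :=
    { app := fun W hW => AddMonoidHom.mk'
        (Equiv.ofBijective _ (D.proj_bijective a W hW)).symm fun x y => by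
          apply (D.proj_bijective a W hW).1
          have e : ∀ z, (D.proj (D.V a) a).app W hW
              ((Equiv.ofBijective _ (D.proj_bijective a W hW)).symm z) = z :=
            (Equiv.ofBijective _ (D.proj_bijective a W hW)).apply_symm_apply
          exact ((e (x + y)).trans (congrArg₂ (· + ·) (e x) (e y)).symm).trans
            (map_add ((D.proj (D.V a) a).app W hW) _ _).symm
      map_smul := fun W hW r x => by
        apply (D.proj_bijective a W hW).1
        rw [(D.proj (D.V a) a).map_smul]
        show (D.proj (D.V a) a).app W hW ((Equiv.ofBijective _ (D.proj_bijective a W hW)).symm _) =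
          r • (D.proj (D.V a) a).app W hW ((Equiv.ofBijective _ (D.proj_bijective a W hW)).symm _)
        simp only [Equiv.ofBijective_apply_symm_apply]
      naturality := fun W' W h hW x => by
        apply (D.proj_bijective a W' (h.trans hW)).1
        rw [(D.proj (D.V a) a).naturality W' W h hW]
        show (D.proj (D.V a) a).app W' _
            ((Equiv.ofBijective _ (D.proj_bijective a W' _)).symm _) =
          mres _ h ((D.proj (D.V a) a).app W hW
            ((Equiv.ofBijective _ (D.proj_bijective a W hW)).symm _))
        simp only [Equiv.ofBijective_apply_symm_apply] }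
  hom_inv_id := LocalHom.ext_app fun W hW s =>
    (Equiv.ofBijective _ (D.proj_bijective a W hW)).symm_apply_apply s
  inv_hom_id := LocalHom.ext_app fun W hW s =>
    (Equiv.ofBijective _ (D.proj_bijective a W hW)).apply_symm_apply s

/-- The projections of the glued sheaf are compatible with the gluing maps. -/
theorem proj_comp_θ (a b : D.ι) :
    ((D.projIso a).hom.mono (inf_le_left : D.V a ⊓ D.V b ≤ D.V a)).comp (D.θ a b).hom =
      (D.projIso b).hom.mono inf_le_right :=
  LocalHom.ext_app fun W hW s => by
    have hle : W ≤ W ⊓ (D.V a ⊓ D.V b) := le_inf le_rfl hW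
    have h := congrArg (mres (D.P b) hle) ((D.family s).2 a b)
    rw [← LocalHom.naturality _ _ _ hle inf_le_right, mres_mres, mres_mres, mres_self, mres_self]
      at h
    exact h

end GlueDatum

end Fermat.Agent.Jac.ModGlue

end
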