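import Fermat.Agent.Jac.ModGlue.Immersion
import Fermat.Prelude.Def_AlgebraicGeometry_RelativePicardFunctor

/-!
# Local generators of invertible sheaves
-/

set_option autoImplicit false

universe u

noncomputable section

open CategoryTheory TopologicalSpace AlgebraicGeometry

namespace Fermat.Agent.Jac.ModGlue

variable {X Y : Scheme.{u}}

/-- The structure sheaf as a sheaf of modules. -/
abbrev oMod (X : Scheme.{u}) : X.Modules := SheafOfModules.unit X.ringCatSheaf

/-- A function as a section of the structure sheaf. -/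
def oSec {W : X.Opens} (a : Γ(X, W)) : Γ(oMod X, W) := a

/-- A section of the structure sheaf as a function. -/
def oFun {W : X.Opens} (a : Γ(oMod X, W)) : Γ(X, W) := a

/-- `g` is a free generator of `P` on every open contained in `W`. -/
def IsGen (P : X.Modules) (W : X.Opens) (g : Γ(P, W)) : Prop :=
  ∀ (W' : X.Opens) (h : W' ≤ W), Function.Bijective fun a : Γ(X, W') => a • mres P h g

/-- `P` has local generators on `V`. -/
def HasGens (V : X.Opens) (P : X.Modules) : Prop :=
  ∀ x ∈ V, ∃ (W : X.Opens) (g : Γ(P, W)), x ∈ W ∧ W ≤ V ∧ IsGen P W g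

/-- A generator restricts to generators on smaller opens. -/
theorem IsGen.mres {P : X.Modules} {W W' : X.Opens} {g : Γ(P, W)} (hg : IsGen P W g) (h : W' ≤ W) :
    IsGen P W' (mres P h g) := fun W'' h' => by
  simpa only [mres_mres] using hg W'' (h'.trans h)

/-- Local isomorphisms send generators to generators. -/
theorem IsGen.map {P Q : X.Modules} {V W : X.Opens} (e : LocalIso V P Q) {g : Γ(P, W)}
    (hg : IsGen P W g) (hW : W ≤ V) : IsGen Q W (e.hom.app W hW g) := fun W' h => by
  have hb : Function.Bijective (e.hom.app W' (h.trans hW)) :=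
    Function.bijective_iff_has_inverse.2 ⟨e.inv.app W' (h.trans hW),
      fun s => congr(($e.hom_inv_id).app W' (h.trans hW) s),
      fun s => congr(($e.inv_hom_id).app W' (h.trans hW) s)⟩
  convert hb.comp (hg W' h) using 1
  funext a
  simp only [Function.comp_apply, e.hom.map_smul, e.hom.naturality W' W h hW]

/-- Having local generators passes to smaller opens. -/
theorem HasGens.mono {P : X.Modules} {V V' : X.Opens} (hP : HasGens V P) (h : V' ≤ V) :
    HasGens V' P := fun x hx => by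
  obtain ⟨W, g, hxW, -, hg⟩ := hP x (h hx)
  exact ⟨W ⊓ V', mres P inf_le_left g, ⟨hxW, hx⟩, inf_le_right, hg.mres inf_le_left⟩

/-- Having local generators passes along local isomorphisms. -/
theorem HasGens.of_localIso {P Q : X.Modules} {V : X.Opens} (hP : HasGens V P)
    (e : LocalIso V P Q) : HasGens V Q := fun x hx => by
  obtain ⟨W, g, hxW, hWV, hg⟩ := hP x hx
  exact ⟨W, e.hom.app W hWV g, hxW, hWV, hg.map e hWV⟩

/-- Having local generators is local on the open. -/
theorem HasGens.of_cover {P : X.Modules} {V : X.Opens} {ι : Type*} (U : ι → X.Opens)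
    (hU : ∀ i, U i ≤ V) (hcov : V ≤ ⨆ i, U i) (h : ∀ i, HasGens (U i) P) : HasGens V P :=
  fun x hx => by
    obtain ⟨i, hi⟩ := Opens.mem_iSup.1 (hcov hx)
    obtain ⟨W, g, hxW, hW, hg⟩ := h i x hi
    exact ⟨W, g, hxW, hW.trans (hU i), hg⟩

/-- A trivialisation along an immersion gives a generator on its image. -/
theorem exists_gen_of_iso (f : Y ⟶ X) [IsOpenImmersion f] {P : X.Modules}
    (e : P.restrict f ≅ oMod Y) :
    ∃ g : Γ(P, f.opensRange), IsGen P f.opensRange g := by
  have h₀ : f.opensRange ≤ f ''ᵁ ⊤ := by rw [f.image_top_eq_opensRange]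
  let g₀ : Γ(P.restrict f, ⊤) := e.inv.app ⊤ (oSec 1)
  refine ⟨mres P h₀ g₀, fun W' h => ?_⟩
  have hle : W' ≤ f ''ᵁ (f ⁻¹ᵁ W') := by
    rw [f.image_preimage_eq_opensRange_inf]; exact le_inf h le_rfl
  have key : Function.Bijective fun a : Γ(Y, f ⁻¹ᵁ W') =>
      a • mres (P.restrict f) (le_top : f ⁻¹ᵁ W' ≤ ⊤) g₀ := by
    have hi : Function.Bijective (e.inv.app (f ⁻¹ᵁ W')) := ConcreteCategory.bijective_of_isIso _
    have h1 : ∀ a : Γ(Y, f ⁻¹ᵁ W'), e.inv.app (f ⁻¹ᵁ W') (oSec a) =
        a • mres (P.restrict f) (le_top : f ⁻¹ᵁ W' ≤ ⊤) g₀ := fun a => by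
      have hmul : a = a * rres Y (le_top : f ⁻¹ᵁ W' ≤ ⊤) (1 : Γ(Y, ⊤)) := by rw [map_one, mul_one]
      rw [← app_mres e.inv le_top, ← e.inv.app_smul]
      exact congrArg (e.inv.app (f ⁻¹ᵁ W')) (congrArg oSec hmul)
    exact funext h1 ▸ hi.comp (Function.bijective_iff_has_inverse.2
      ⟨oFun, fun _ => rfl, fun _ => rfl⟩ : Function.Bijective (oSec (W := f ⁻¹ᵁ W')))
  have hres : Function.Bijective (mres P (Scheme.Hom.image_preimage_le f W') :
      Γ(P, W') → Γ(P, f ''ᵁ (f ⁻¹ᵁ W'))) :=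
    Function.bijective_iff_has_inverse.2 ⟨mres P hle,
      fun s => by rw [mres_mres, mres_self], fun s => by rw [mres_mres, mres_self]⟩
  have hring : Function.Bijective (fun a : Γ(X, W') =>
      (f.appIso (f ⁻¹ᵁ W')).hom (rres X (Scheme.Hom.image_preimage_le f W') a)) :=
    (ConcreteCategory.bijective_of_isIso (f.appIso (f ⁻¹ᵁ W')).hom).comp
      (Function.bijective_iff_has_inverse.2 ⟨rres X hle,
        fun s => by rw [rres_rres, rres_self], fun s => by rw [rres_rres, rres_self]⟩)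
  rw [← hres.of_comp_iff']
  refine iff_of_eq (congrArg Function.Bijective (funext fun a => ?_)) |>.2 (key.comp hring)
  let g₁ : Γ(P, f ''ᵁ ⊤) := g₀
  show mres P _ (a • mres P h (mres P h₀ g₁)) =
    (f.appIso (f ⁻¹ᵁ W')).inv ((f.appIso (f ⁻¹ᵁ W')).hom
      (rres X (Scheme.Hom.image_preimage_le f W') a)) •
        mres P (Scheme.Hom.image_mono f (le_top : f ⁻¹ᵁ W' ≤ ⊤)) g₁
  rw [mres_smul, mres_mres, mres_mres]
  congr 1
  exact (congr($((f.appIso (f ⁻¹ᵁ W')).hom_inv_id)
    (rres X (Scheme.Hom.image_preimage_le f W') a))).symm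

/-- An invertible sheaf has local generators on every open. -/
theorem hasGens_of_isInvertible {P : X.Modules} (hP : Scheme.Modules.IsInvertible P) (V : X.Opens) :
    HasGens V P := fun x hx => by
  obtain ⟨U, hxU, ⟨e⟩⟩ := hP.exists_trivialization x
  obtain ⟨g, hg⟩ := exists_gen_of_iso U.ι
    ((Scheme.Modules.restrictFunctorIsoPullback U.ι).app P ≪≫ e)
  exact ⟨U.ι.opensRange ⊓ V, mres P inf_le_left g, ⟨by simpa using hxU, hx⟩, inf_le_right,
    hg.mres inf_le_left⟩

/-- A sheaf with local generators everywhere is invertible. -/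
theorem isInvertible_of_hasGens {P : X.Modules} (hP : HasGens ⊤ P) :
    Scheme.Modules.IsInvertible P := ⟨fun x => by
  obtain ⟨W, g, hxW, -, hg⟩ := hP x trivial
  refine ⟨W, hxW, ⟨((Scheme.Modules.restrictFunctorIsoPullback W.ι).app P).symm ≪≫ ?_⟩⟩
  let φ : LocalHom ⊤ (oMod W.toScheme) (P.restrict W.ι) :=
    { app := fun W₀ _ => AddMonoidHom.mk'
        (fun a => let a' : Γ(X, W.ι ''ᵁ W₀) := oFun a
          (a' • mres P (W.ι_image_le W₀) g : Γ(P, W.ι ''ᵁ W₀)))
        (fun a b => add_smul (oFun a : Γ(X, W.ι ''ᵁ W₀)) (oFun b) (mres P (W.ι_image_le W₀) g))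
      map_smul := fun W₀ _ a b => by
        let a' : Γ(X, W.ι ''ᵁ W₀) := a
        let b' : Γ(X, W.ι ''ᵁ W₀) := oFun b
        have ha : ((W.ι.appIso W₀).inv a : Γ(X, W.ι ''ᵁ W₀)) = a' := by
          rw [Scheme.Opens.ι_appIso]; rfl
        let m : Γ(P, W.ι ''ᵁ W₀) := b' • mres P (W.ι_image_le W₀) g
        exact (mul_smul a' b' (mres P (W.ι_image_le W₀) g)).trans
          (congrArg (fun c : Γ(X, W.ι ''ᵁ W₀) => c • m) ha).symm
      naturality := fun W₁ W₀ h _ a => by
        let a' : Γ(X, W.ι ''ᵁ W₀) := oFun a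
        show rres X (Scheme.Hom.image_mono W.ι h) a' • mres P _ g =
          mres P (Scheme.Hom.image_mono W.ι h) (a' • mres P _ g)
        rw [mres_smul, mres_mres] }
  have : IsIso φ.toHom := Scheme.Modules.Hom.isIso_iff_isIso_app.2 fun W₀ =>
    (ConcreteCategory.isIso_iff_bijective _).2 (hg (W.ι ''ᵁ W₀) (W.ι_image_le W₀))
  exact (asIso φ.toHom).symm⟩

end Fermat.Agent.Jac.ModGlue

end
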