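import Fermat.Agent.Jac.ModGlue.Local

/-!
# Local morphisms and restriction along open immersions
-/

set_option autoImplicit false

universe u

noncomputable section

open CategoryTheory TopologicalSpace AlgebraicGeometry

namespace Fermat.Agent.Jac.ModGlue

variable {X Y Y' Z : Scheme.{u}}

/-- A morphism over `V` gives a morphism of the restrictions along an immersion into `V`. -/
def restrictHom (g : Z ⟶ X) [IsOpenImmersion g] {V : X.Opens} {P Q : X.Modules}
    (hg : g.opensRange ≤ V) (φ : LocalHom V P Q) : P.restrict g ⟶ Q.restrict g :=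
  LocalHom.toHom
    { app := fun W _ => AddMonoidHom.mk'
        (fun s => φ.app (g ''ᵁ W) ((g.image_le_opensRange _).trans hg) s)
        (fun s t => map_add (φ.app (g ''ᵁ W) _) s t)
      map_smul := fun W _ a s => φ.map_smul _ _ ((g.appIso W).inv a) s
      naturality := fun _ _ h _ s => φ.naturality _ _ (Scheme.Hom.image_mono _ h)
        ((g.image_le_opensRange _).trans hg) s }

/-- A restricted local morphism acts on sections through the images of opens. -/
@[simp]
theorem restrictHom_app (g : Z ⟶ X) [IsOpenImmersion g] {V : X.Opens} {P Q : X.Modules}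
    (hg : g.opensRange ≤ V) (φ : LocalHom V P Q) (W : Z.Opens) (s : Γ(P, g ''ᵁ W)) :
    (restrictHom g hg φ).app W s = φ.app (g ''ᵁ W) ((g.image_le_opensRange _).trans hg) s := rfl

/-- An isomorphism over `V` gives an isomorphism of the restrictions along an immersion into `V`. -/
def restrictIso (g : Z ⟶ X) [IsOpenImmersion g] {V : X.Opens} {P Q : X.Modules}
    (hg : g.opensRange ≤ V) (e : LocalIso V P Q) : P.restrict g ≅ Q.restrict g where
  hom := restrictHom g hg e.hom
  inv := restrictHom g hg e.inv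
  hom_inv_id := Scheme.Modules.hom_ext _ _ fun W => by
    ext s; exact congr(($e.hom_inv_id).app (g ''ᵁ W) ((g.image_le_opensRange _).trans hg) s)
  inv_hom_id := Scheme.Modules.hom_ext _ _ fun W => by
    ext s; exact congr(($e.inv_hom_id).app (g ''ᵁ W) ((g.image_le_opensRange _).trans hg) s)

/-- An open immersion `j` with `j ≫ f = g` maps preimages along `g` into preimages along `f`. -/
theorem image_preimage_le (f : Y ⟶ X) (g : Z ⟶ X) (j : Z ⟶ Y) [IsOpenImmersion j] (hj : j ≫ f = g)
    (W : X.Opens) : j ''ᵁ (g ⁻¹ᵁ W) ≤ f ⁻¹ᵁ W := by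
  rintro _ ⟨z, hz, rfl⟩
  subst hj
  exact hz

theorem preimage_le_image (f : Y ⟶ X) [IsOpenImmersion f] (g : Z ⟶ X) [IsOpenImmersion g]
    (j : Z ⟶ Y) [IsOpenImmersion j] (hj : j ≫ f = g) {W : X.Opens} (hW : W ≤ g.opensRange) :
    f ⁻¹ᵁ W ≤ j ''ᵁ (g ⁻¹ᵁ W) := by
  intro y hy
  obtain ⟨z, hz⟩ := hW hy
  subst hj
  exact ⟨z, show (j ≫ f).base z ∈ W from hz.symm ▸ hy, f.isOpenEmbedding.injective hz⟩

theorem appIso_inv_app (f : Y ⟶ X) (g : Z ⟶ X) (j : Z ⟶ Y) [IsOpenImmersion j] (hj : j ≫ f = g)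
    (W : X.Opens) (a : Γ(X, W)) :
    (j.appIso (g ⁻¹ᵁ W)).inv (g.app W a) =
      rres Y (image_preimage_le f g j hj W) (f.app W a) := by
  subst hj
  exact congr($(j.app_appIso_inv (f ⁻¹ᵁ W)) (f.app W a))

section Push

variable (f : Y ⟶ X) [IsOpenImmersion f] (f' : Y' ⟶ X) [IsOpenImmersion f'] (g : Z ⟶ X)
  [IsOpenImmersion g] (j : Z ⟶ Y) [IsOpenImmersion j] (j' : Z ⟶ Y') [IsOpenImmersion j']
  (hj : j ≫ f = g) (hj' : j' ≫ f' = g) {M : Y.Modules} {M' : Y'.Modules}

/-- The map of sections of a morphism of restrictions. -/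
def pushMap (e : M.restrict j ⟶ M'.restrict j') (W : X.Opens) (hW : W ≤ g.opensRange) :
    Γ(M, f ⁻¹ᵁ W) →+ Γ(M', f' ⁻¹ᵁ W) :=
  ((mres M' (preimage_le_image f' g j' hj' hW)).comp (e.app (g ⁻¹ᵁ W)).hom).comp
    (mres M (image_preimage_le f g j hj W))

omit [IsOpenImmersion f] in
/-- The map induced between push-forwards is linear. -/
theorem pushMap_smul (e : M.restrict j ⟶ M'.restrict j') (W : X.Opens) (hW : W ≤ g.opensRange)
    (a : Γ(X, W)) (s : Γ(M, f ⁻¹ᵁ W)) :
    pushMap f f' g j j' hj hj' e W hW (f.app W a • s) =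
      f'.app W a • pushMap f f' g j j' hj hj' e W hW s := by
  let s' : Γ(M.restrict j, g ⁻¹ᵁ W) := mres M (image_preimage_le f g j hj W) s
  have h : e.app (g ⁻¹ᵁ W) (g.app W a • s') = g.app W a • e.app (g ⁻¹ᵁ W) s' := e.app_smul _ _
  have h1 : (g.app W a • s' : Γ(M.restrict j, g ⁻¹ᵁ W)) =
      mres M (image_preimage_le f g j hj W) (f.app W a • s) := by
    rw [mres_smul, ← appIso_inv_app f g j hj W a]; rfl
  rw [h1] at h
  show mres M' _ (e.app (g ⁻¹ᵁ W) (mres M _ (f.app W a • s))) = _
  rw [h]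
  let t : Γ(M', j' ''ᵁ (g ⁻¹ᵁ W)) := e.app (g ⁻¹ᵁ W) s'
  show mres M' _ ((j'.appIso (g ⁻¹ᵁ W)).inv (g.app W a) • t) = _
  rw [mres_smul, appIso_inv_app f' g j' hj' W a, rres_rres, rres_self]
  rfl

omit [IsOpenImmersion f] in
/-- The map induced between push-forwards commutes with restriction. -/
theorem pushMap_naturality (e : M.restrict j ⟶ M'.restrict j') (W' W : X.Opens) (h : W' ≤ W)
    (hW : W ≤ g.opensRange) (s : Γ(M, f ⁻¹ᵁ W)) :
    pushMap f f' g j j' hj hj' e W' (h.trans hW) (mres M (f.preimage_mono h) s) =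
      mres M' (f'.preimage_mono h) (pushMap f f' g j j' hj hj' e W hW s) := by
  let s' : Γ(M.restrict j, g ⁻¹ᵁ W) := mres M (image_preimage_le f g j hj W) s
  have h0 := app_mres e (g.preimage_mono h) s'
  have h1 : mres M (image_preimage_le f g j hj W') (mres M (f.preimage_mono h) s) =
      mres (M.restrict j) (g.preimage_mono h) s' :=
    (mres_mres M _ _ s).trans (mres_mres M (Scheme.Hom.image_mono j (g.preimage_mono h)) _ s).symm
  show mres M' _ (e.app _ (mres M _ (mres M _ s))) = mres M' _ (mres M' _ (e.app _ s'))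
  rw [h1, h0]
  let t : Γ(M', j' ''ᵁ (g ⁻¹ᵁ W)) := e.app (g ⁻¹ᵁ W) s'
  exact (mres_mres M' _ (Scheme.Hom.image_mono j' (g.preimage_mono h)) t).trans
    (mres_mres M' _ _ t).symm

/-- A morphism of restrictions gives a morphism of pushforwards over the image. -/
def pushHom (e : M.restrict j ⟶ M'.restrict j') :
    LocalHom g.opensRange ((Scheme.Modules.pushforward f).obj M)
      ((Scheme.Modules.pushforward f').obj M') where
  app W hW := pushMap f f' g j j' hj hj' e W hW
  map_smul W hW a s := pushMap_smul f f' g j j' hj hj' e W hW a s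
  naturality W' W h hW s := pushMap_naturality f f' g j j' hj hj' e W' W h hW s

/-- Mutually inverse isomorphisms induce mutually inverse maps between push-forwards. -/
theorem pushHom_comp (e : M.restrict j ⟶ M'.restrict j') (e' : M'.restrict j' ⟶ M.restrict j)
    (h : e ≫ e' = 𝟙 _) :
    (pushHom f f' g j j' hj hj' e).comp (pushHom f' f g j' j hj' hj e') =
      LocalHom.id g.opensRange ((Scheme.Modules.pushforward f).obj M) :=
  LocalHom.ext_app fun W hW (s : Γ(M, f ⁻¹ᵁ W)) => by
    show mres M _ (e'.app _ (mres M' _ (mres M' _ (e.app _ (mres M _ s))))) = s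
    let s' : Γ(M.restrict j, g ⁻¹ᵁ W) := mres M (image_preimage_le f g j hj W) s
    let t : Γ(M', j' ''ᵁ (g ⁻¹ᵁ W)) := e.app (g ⁻¹ᵁ W) s'
    have ht : mres M' (image_preimage_le f' g j' hj' W)
        (mres M' (preimage_le_image f' g j' hj' hW) t) = t :=
      (mres_mres M' _ _ t).trans (mres_self M' le_rfl t)
    have hs : e'.app (g ⁻¹ᵁ W) (e.app (g ⁻¹ᵁ W) s') = s' :=
      congr(Scheme.Modules.Hom.app $h (g ⁻¹ᵁ W) s')
    refine (congrArg (fun z : Γ(M'.restrict j', g ⁻¹ᵁ W) =>
      mres M (preimage_le_image f g j hj hW) (e'.app (g ⁻¹ᵁ W) z)) ht).trans ?_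
    exact (congrArg (mres M (preimage_le_image f g j hj hW)) hs).trans
      ((mres_mres M _ _ s).trans (mres_self M le_rfl s))

/-- An isomorphism of restrictions gives an isomorphism of pushforwards over the image. -/
def pushIso (e : M.restrict j ≅ M'.restrict j') :
    LocalIso g.opensRange ((Scheme.Modules.pushforward f).obj M)
      ((Scheme.Modules.pushforward f').obj M') where
  hom := pushHom f f' g j j' hj hj' e.hom
  inv := pushHom f' f g j' j hj' hj e.inv
  hom_inv_id := pushHom_comp f f' g j j' hj hj' e.hom e.inv e.hom_inv_id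
  inv_hom_id := pushHom_comp f' f g j' j hj' hj e.inv e.hom e.inv_hom_id

end Push

/-- Restricting a pushforward back gives the module. -/
def pushforwardRestrict (f : Y ⟶ X) [IsOpenImmersion f] (M : Y.Modules) :
    ((Scheme.Modules.pushforward f).obj M).restrict f ≅ M :=
  (asIso (Scheme.Modules.restrictAdjunction f).counit).app M

end Fermat.Agent.Jac.ModGlue

end
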