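import Mathlib.AlgebraicGeometry.Modules.Sheaf

/-!
# Morphisms of sheaves of modules on an open subset, on sections

A morphism of sheaves of modules over an open `V` is given by maps of sections on all opens
contained in `V`. Such morphisms glue.
-/

set_option autoImplicit false

universe u

noncomputable section

open CategoryTheory Opposite TopologicalSpace AlgebraicGeometry

namespace Fermat.Agent.Jac.ModGlue

variable {X : Scheme.{u}}

/-- Restriction of sections of a sheaf of modules. -/
def mres (P : X.Modules) {W' W : X.Opens} (h : W' ≤ W) : Γ(P, W) →+ Γ(P, W') :=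
  (P.presheaf.map (homOfLE h).op).hom

/-- Restriction of functions. -/
def rres (X : Scheme.{u}) {W' W : X.Opens} (h : W' ≤ W) : Γ(X, W) →+* Γ(X, W') :=
  (X.presheaf.map (homOfLE h).op).hom

/-- Restrictions compose. -/
@[simp]
theorem mres_mres (P : X.Modules) {W'' W' W : X.Opens} (h : W'' ≤ W') (h' : W' ≤ W) (s : Γ(P, W)) :
    mres P h (mres P h' s) = mres P (h.trans h') s := by
  simp only [mres]
  rw [← ConcreteCategory.comp_apply, ← Functor.map_comp, ← op_comp, homOfLE_comp]

/-- Restriction to the same open is the identity. -/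
@[simp]
theorem mres_self (P : X.Modules) {W : X.Opens} (h : W ≤ W) (s : Γ(P, W)) : mres P h s = s := by
  simp only [mres]
  rw [show (homOfLE h).op = 𝟙 (op W) from Subsingleton.elim _ _, P.presheaf.map_id]
  rfl

/-- Restriction of sections is semilinear. -/
theorem mres_smul (P : X.Modules) {W' W : X.Opens} (h : W' ≤ W) (a : Γ(X, W)) (s : Γ(P, W)) :
    mres P h (a • s) = rres X h a • mres P h s :=
  P.map_smul (homOfLE h) a s

/-- Restriction of functions is transitive. -/
@[simp]
theorem rres_rres {W'' W' W : X.Opens} (h : W'' ≤ W') (h' : W' ≤ W) (s : Γ(X, W)) :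
    rres X h (rres X h' s) = rres X (h.trans h') s := by
  simp only [rres]
  rw [← ConcreteCategory.comp_apply, ← Functor.map_comp, ← op_comp, homOfLE_comp]

@[simp]
theorem rres_self {W : X.Opens} (h : W ≤ W) (s : Γ(X, W)) : rres X h s = s := by
  simp only [rres]
  rw [show (homOfLE h).op = 𝟙 (op W) from Subsingleton.elim _ _, X.presheaf.map_id]
  rfl

/-- Morphisms of sheaves commute with restriction. -/
theorem app_mres {P Q : X.Modules} (φ : P ⟶ Q) {W' W : X.Opens} (h : W' ≤ W) (s : Γ(P, W)) :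
    φ.app W' (mres P h s) = mres Q h (φ.app W s) :=
  congr($(φ.mapPresheaf.naturality (homOfLE h).op) s)

/-- Sections agreeing on a cover are equal. -/
theorem eq_of_cover (P : X.Modules) {W : X.Opens} {ι : Type*} (U : ι → X.Opens)
    (hU : ∀ i, U i ≤ W) (hcov : W ≤ ⨆ i, U i) (s t : Γ(P, W))
    (h : ∀ i, mres P (hU i) s = mres P (hU i) t) : s = t :=
  TopCat.Sheaf.eq_of_locally_eq' (⟨P.presheaf, P.isSheaf⟩ : TopCat.Sheaf Ab X) U W
    (fun i => homOfLE (hU i)) hcov s t h

/-- Compatible sections glue. -/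
theorem exists_glue (P : X.Modules) {W : X.Opens} {ι : Type*} (U : ι → X.Opens)
    (hU : ∀ i, U i ≤ W) (hcov : W ≤ ⨆ i, U i) (s : ∀ i, Γ(P, U i))
    (h : ∀ i j, mres P (inf_le_left : U i ⊓ U j ≤ U i) (s i) =
      mres P (inf_le_right : U i ⊓ U j ≤ U j) (s j)) :
    ∃ t : Γ(P, W), ∀ i, mres P (hU i) t = s i := by
  obtain ⟨t, ht, -⟩ := TopCat.Sheaf.existsUnique_gluing'
    (⟨P.presheaf, P.isSheaf⟩ : TopCat.Sheaf Ab X) U W (fun i => homOfLE (hU i)) hcov s
    (fun i j => h i j)
  exact ⟨t, ht⟩

/-- A morphism over the open `V`. -/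
@[ext]
structure LocalHom (V : X.Opens) (P Q : X.Modules) where
  /-- the maps on sections -/
  app : ∀ W : X.Opens, W ≤ V → (Γ(P, W) →+ Γ(Q, W))
  map_smul : ∀ (W : X.Opens) (hW : W ≤ V) (a : Γ(X, W)) (s : Γ(P, W)),
    app W hW (a • s) = a • app W hW s
  naturality : ∀ (W' W : X.Opens) (h : W' ≤ W) (hW : W ≤ V) (s : Γ(P, W)),
    app W' (h.trans hW) (mres P h s) = mres Q h (app W hW s)

namespace LocalHom

variable {V V' : X.Opens} {P Q R S : X.Modules}

/-- Local morphisms with equal values on all sections are equal. -/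
theorem ext_app {φ ψ : LocalHom V P Q} (h : ∀ W hW s, φ.app W hW s = ψ.app W hW s) : φ = ψ := by
  ext W hW s
  exact h W hW s

/-- A morphism gives a morphism over every open. -/
def ofHom (V : X.Opens) (φ : P ⟶ Q) : LocalHom V P Q where
  app W _ := (φ.app W).hom
  map_smul _ _ a s := φ.app_smul a s
  naturality _ _ h _ s := app_mres φ h s

/-- The identity. -/
def id (V : X.Opens) (P : X.Modules) : LocalHom V P P where
  app _ _ := AddMonoidHom.id _
  map_smul _ _ _ _ := rfl
  naturality _ _ _ _ _ := rfl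

/-- Composition. -/
def comp (φ : LocalHom V P Q) (ψ : LocalHom V Q R) : LocalHom V P R where
  app W hW := (ψ.app W hW).comp (φ.app W hW)
  map_smul W hW a s := by simp [φ.map_smul, ψ.map_smul]
  naturality W' W h hW s := by simp [φ.naturality W' W h hW, ψ.naturality W' W h hW]

/-- Shrinking the open. -/
def mono (h : V' ≤ V) (φ : LocalHom V P Q) : LocalHom V' P Q where
  app W hW := φ.app W (hW.trans h)
  map_smul W hW := φ.map_smul W (hW.trans h)
  naturality W' W hle hW := φ.naturality W' W hle (hW.trans h)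

@[simp] theorem id_app (W : X.Opens) (hW : W ≤ V) (s : Γ(P, W)) : (id V P).app W hW s = s := rfl

theorem comp_assoc (φ : LocalHom V P Q) (ψ : LocalHom V Q R) (χ : LocalHom V R S) :
    (φ.comp ψ).comp χ = φ.comp (ψ.comp χ) := rfl

theorem id_comp (φ : LocalHom V P Q) : (id V P).comp φ = φ := rfl

theorem comp_id (φ : LocalHom V P Q) : φ.comp (id V Q) = φ := rfl

/-- Equality is local. -/
theorem eq_of_cover {φ ψ : LocalHom V P Q} {ι : Type*} (U : ι → X.Opens) (hU : ∀ i, U i ≤ V)
    (hcov : V ≤ ⨆ i, U i) (h : ∀ i, φ.mono (hU i) = ψ.mono (hU i)) : φ = ψ := by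
  refine ext_app fun W hW s => ModGlue.eq_of_cover Q (fun i => W ⊓ U i) (fun i => inf_le_left)
    (by rw [← inf_iSup_eq]; exact le_inf le_rfl (hW.trans hcov)) _ _ fun i => ?_
  rw [← φ.naturality _ _ inf_le_left hW, ← ψ.naturality _ _ inf_le_left hW]
  exact congr(($(h i)).app (W ⊓ U i) inf_le_right (mres P inf_le_left s))

/-- Morphisms over the members of a cover agreeing on overlaps glue. -/
theorem exists_glue {ι : Type*} (U : ι → X.Opens) (hU : ∀ i, U i ≤ V) (hcov : V ≤ ⨆ i, U i)
    (φ : ∀ i, LocalHom (U i) P Q)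
    (hφ : ∀ i j, (φ i).mono (inf_le_left : U i ⊓ U j ≤ U i) =
      (φ j).mono (inf_le_right : U i ⊓ U j ≤ U j)) :
    ∃ ψ : LocalHom V P Q, ∀ i, ψ.mono (hU i) = φ i := by
  have hc : ∀ W : X.Opens, W ≤ V → W ≤ ⨆ i, W ⊓ U i := fun W hW => by
    rw [← inf_iSup_eq]; exact le_inf le_rfl (hW.trans hcov)
  have ex : ∀ (W : X.Opens) (hW : W ≤ V) (s : Γ(P, W)), ∃ t : Γ(Q, W), ∀ i,
      mres Q (inf_le_left : W ⊓ U i ≤ W) t = (φ i).app _ inf_le_right (mres P inf_le_left s) := by
    intro W hW s
    refine ModGlue.exists_glue Q _ _ (hc W hW) _ fun i j => ?_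
    rw [← (φ i).naturality _ _ inf_le_left inf_le_right,
      ← (φ j).naturality _ _ inf_le_right inf_le_right]
    simp only [mres_mres]
    exact congr(($(hφ i j)).app _
      (le_inf (inf_le_left.trans inf_le_right) (inf_le_right.trans inf_le_right)) (mres P _ s))
  choose f hf using ex
  have key : ∀ (W : X.Opens) (hW : W ≤ V) (s : Γ(P, W)) (t : Γ(Q, W)),
      (∀ i, mres Q (inf_le_left : W ⊓ U i ≤ W) t =
        (φ i).app _ inf_le_right (mres P inf_le_left s)) → f W hW s = t := fun W hW s t ht =>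
    ModGlue.eq_of_cover Q _ (fun i => inf_le_left) (hc W hW) _ _ fun i => by rw [hf, ht]
  refine ⟨⟨fun W hW => AddMonoidHom.mk' (f W hW) fun s t => key _ _ _ _ fun i => ?_,
    fun W hW a s => key _ _ _ _ fun i => ?_, fun W' W h hW s => key _ _ _ _ fun i => ?_⟩,
    fun i => ext_app fun W hW s => key _ _ _ _ fun j => ?_⟩
  · simp only [map_add, hf]
  · show mres Q _ (a • f W hW s) = _
    rw [mres_smul, mres_smul, (φ i).map_smul, hf]
  · show mres Q _ (mres Q h (f W hW s)) = _
    rw [mres_mres, ← mres_mres Q (inf_le_inf_right (U i) h) inf_le_left, hf,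
      ← (φ i).naturality _ _ (inf_le_inf_right (U i) h) inf_le_right, mres_mres, mres_mres]
  · rw [← (φ i).naturality _ _ inf_le_left hW]
    exact congr(($(hφ i j)).app _ (le_inf (inf_le_left.trans hW) inf_le_right) (mres P _ s))

/-- A morphism over the whole space is a morphism. -/
def toHom (φ : LocalHom (⊤ : X.Opens) P Q) : P ⟶ Q :=
  (Scheme.Modules.fullyFaithfulToPresheafOfModules (X := X)).preimage
    { app := fun W => ModuleCat.ofHom
        { toFun := φ.app W.unop le_top
          map_add' := map_add _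
          map_smul' := φ.map_smul W.unop le_top }
      naturality := fun {W W'} i => by
        ext s
        exact φ.naturality W'.unop W.unop (leOfHom i.unop) le_top s }

end LocalHom

/-- An isomorphism over the open `V`. -/
structure LocalIso (V : X.Opens) (P Q : X.Modules) where
  /-- the map -/
  hom : LocalHom V P Q
  /-- its inverse -/
  inv : LocalHom V Q P
  hom_inv_id : hom.comp inv = LocalHom.id V P
  inv_hom_id : inv.comp hom = LocalHom.id V Q

namespace LocalIso

variable {V V' : X.Opens} {P Q R : X.Modules}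

/-- The inverse. -/
def symm (e : LocalIso V P Q) : LocalIso V Q P := ⟨e.inv, e.hom, e.inv_hom_id, e.hom_inv_id⟩

/-- The identity. -/
def refl (V : X.Opens) (P : X.Modules) : LocalIso V P P :=
  ⟨LocalHom.id V P, LocalHom.id V P, rfl, rfl⟩

/-- Composition. -/
def trans (e : LocalIso V P Q) (e' : LocalIso V Q R) : LocalIso V P R where
  hom := e.hom.comp e'.hom
  inv := e'.inv.comp e.inv
  hom_inv_id := by
    rw [LocalHom.comp_assoc, ← LocalHom.comp_assoc e'.hom, e'.hom_inv_id, LocalHom.id_comp,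
      e.hom_inv_id]
  inv_hom_id := by
    rw [LocalHom.comp_assoc, ← LocalHom.comp_assoc e.inv, e.inv_hom_id, LocalHom.id_comp,
      e'.inv_hom_id]

/-- Shrinking the open. -/
def mono (h : V' ≤ V) (e : LocalIso V P Q) : LocalIso V' P Q where
  hom := e.hom.mono h
  inv := e.inv.mono h
  hom_inv_id := congrArg (LocalHom.mono h) e.hom_inv_id
  inv_hom_id := congrArg (LocalHom.mono h) e.inv_hom_id

/-- An isomorphism gives an isomorphism over every open. -/
def ofIso (V : X.Opens) (e : P ≅ Q) : LocalIso V P Q where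
  hom := LocalHom.ofHom V e.hom
  inv := LocalHom.ofHom V e.inv
  hom_inv_id := LocalHom.ext_app fun W _ s => congr(Scheme.Modules.Hom.app $e.hom_inv_id W s)
  inv_hom_id := LocalHom.ext_app fun W _ s => congr(Scheme.Modules.Hom.app $e.inv_hom_id W s)

theorem inv_unique (e e' : LocalIso V P Q) (h : e.hom = e'.hom) : e.inv = e'.inv := by
  rw [← LocalHom.comp_id e.inv, ← e'.hom_inv_id, ← LocalHom.comp_assoc, ← h, e.inv_hom_id,
    LocalHom.id_comp]

/-- An isomorphism over the whole space is an isomorphism. -/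
def toIso (e : LocalIso (⊤ : X.Opens) P Q) : P ≅ Q where
  hom := e.hom.toHom
  inv := e.inv.toHom
  hom_inv_id := Scheme.Modules.hom_ext _ _ fun W => by
    ext s; exact congr(($e.hom_inv_id).app W le_top s)
  inv_hom_id := Scheme.Modules.hom_ext _ _ fun W => by
    ext s; exact congr(($e.inv_hom_id).app W le_top s)

/-- Isomorphisms over the members of a cover agreeing on overlaps glue. -/
theorem exists_glue {ι : Type*} (U : ι → X.Opens) (hU : ∀ i, U i ≤ V) (hcov : V ≤ ⨆ i, U i)
    (e : ∀ i, LocalIso (U i) P Q)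
    (he : ∀ i j, (e i).hom.mono (inf_le_left : U i ⊓ U j ≤ U i) =
      (e j).hom.mono (inf_le_right : U i ⊓ U j ≤ U j)) :
    ∃ E : LocalIso V P Q, ∀ i, E.hom.mono (hU i) = (e i).hom := by
  obtain ⟨ψ, hψ⟩ := LocalHom.exists_glue U hU hcov (fun i => (e i).hom) he
  obtain ⟨χ, hχ⟩ := LocalHom.exists_glue U hU hcov (fun i => (e i).inv) fun i j =>
    inv_unique ((e i).mono inf_le_left) ((e j).mono inf_le_right) (he i j)
  refine ⟨⟨ψ, χ, LocalHom.eq_of_cover U hU hcov fun i => ?_,
    LocalHom.eq_of_cover U hU hcov fun i => ?_⟩, hψ⟩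
  · show (ψ.mono (hU i)).comp (χ.mono (hU i)) = _
    rw [hψ, hχ, (e i).hom_inv_id]; rfl
  · show (χ.mono (hU i)).comp (ψ.mono (hU i)) = _
    rw [hψ, hχ, (e i).inv_hom_id]; rfl

end LocalIso

end Fermat.Agent.Jac.ModGlue

end
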