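import Fermat.Agent.Jac.ModGlue.Generator

/-!
# Rigidifications of invertible sheaves along a section, on sections

For `σ : T ⟶ X` a rigidification of an invertible sheaf `P` is a morphism `P ⟶ σ_* 𝒪_T` whose value
on a generator is a unit along `σ`.
-/

set_option autoImplicit false

universe u

noncomputable section

open CategoryTheory Opposite TopologicalSpace AlgebraicGeometry

namespace Fermat.Agent.Jac.ModGlue

variable {X T : Scheme.{u}} (σ : T ⟶ X)

/-- A function restricted into its nonvanishing locus is a unit. -/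
theorem isUnit_rres_of_le {W O : T.Opens} (u : Γ(T, W)) (h : O ≤ W) (hO : O ≤ T.basicOpen u) :
    IsUnit (rres T h u) := by
  have := (RingedSpace.isUnit_res_basicOpen T.toLocallyRingedSpace.toRingedSpace u).map (rres T hO)
  rwa [← rres_rres hO (T.basicOpen_le u)]

/-- Pull-back along the section commutes with restriction. -/
theorem app_rres {W' W : X.Opens} (h : W' ≤ W) (a : Γ(X, W)) :
    σ.app W' (rres X h a) = rres T (σ.preimage_mono h) (σ.app W a) :=
  congr($(σ.naturality (homOfLE h).op) a)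

/-- The target of rigidifications. -/
abbrev sO : X.Modules := (Scheme.Modules.pushforward σ).obj (oMod T)

variable {σ} {V : X.Opens} {P : X.Modules}

/-- The value of a rigidification on a section. -/
def val (ψ : LocalHom V P (sO σ)) (W : X.Opens) (hW : W ≤ V) (s : Γ(P, W)) : Γ(T, σ ⁻¹ᵁ W) :=
  ψ.app W hW s

/-- A rigidification is semilinear along the section. -/
theorem val_smul (ψ : LocalHom V P (sO σ)) (W : X.Opens) (hW : W ≤ V) (a : Γ(X, W)) (s : Γ(P, W)) :
    val ψ W hW (a • s) = σ.app W a * val ψ W hW s :=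
  ψ.map_smul W hW a s

/-- A rigidification commutes with restriction. -/
theorem val_mres (ψ : LocalHom V P (sO σ)) (W' W : X.Opens) (h : W' ≤ W) (hW : W ≤ V)
    (s : Γ(P, W)) :
    val ψ W' (h.trans hW) (mres P h s) = rres T (σ.preimage_mono h) (val ψ W hW s) :=
  ψ.naturality W' W h hW s

/-- The morphism is a unit along the section. -/
def IsRig (ψ : LocalHom V P (sO σ)) : Prop :=
  ∀ y, σ y ∈ V → ∃ (W : X.Opens) (hW : W ≤ V) (s : Γ(P, W)), y ∈ T.basicOpen (val ψ W hW s)

/-- A rigidification is a unit on a generator. -/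
theorem IsRig.mem_basicOpen {ψ : LocalHom V P (sO σ)} (hψ : IsRig ψ) {W : X.Opens} (hW : W ≤ V)
    {g : Γ(P, W)} (hg : IsGen P W g) {y : T} (hy : σ y ∈ W) : y ∈ T.basicOpen (val ψ W hW g) := by
  obtain ⟨W', hW', s, hs⟩ := hψ y (hW hy)
  obtain ⟨a, ha : a • mres P inf_le_left g = mres P (inf_le_right : W ⊓ W' ≤ W') s⟩ :=
    (hg (W ⊓ W') inf_le_left).2 (mres P (inf_le_right : W ⊓ W' ≤ W') s)
  have h := congrArg (val ψ (W ⊓ W') (inf_le_left.trans hW)) ha
  rw [val_smul, val_mres ψ _ _ inf_le_left hW, val_mres ψ _ _ inf_le_right hW'] at h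
  have hy' : y ∈ T.basicOpen (rres T (σ.preimage_mono (inf_le_right : W ⊓ W' ≤ W'))
      (val ψ W' hW' s)) := by
    rw [rres, Scheme.basicOpen_res]
    exact ⟨⟨hy, T.basicOpen_le _ hs⟩, hs⟩
  rw [← h, T.basicOpen_mul] at hy'
  have := hy'.2
  rw [rres, Scheme.basicOpen_res] at this
  exact this.2

/-- A rigidification of the pullback gives a rigidification on sections. -/
theorem isRig_of_pullback (r : (Scheme.Modules.pullback σ).obj P ⟶ oMod T) [IsIso r] :
    IsRig (LocalHom.ofHom V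
      (((Scheme.Modules.pullbackPushforwardAdjunction σ).homEquiv P (oMod T)) r)) := by
  intro y hy
  by_contra hne
  push Not at hne
  set ψ := (Scheme.Modules.pullbackPushforwardAdjunction σ).homEquiv P (oMod T) r with hψdef
  let z := T.fromSpecResidueField y
  let q : oMod T ⟶ (Scheme.Modules.pushforward z).obj (oMod (Spec (T.residueField y))) :=
    SheafOfModules.unitToPushforwardObjUnit z.toRingCatSheafHom
  have hzero : ψ ≫ (Scheme.Modules.pushforward σ).map q = 0 := by
    refine Scheme.Modules.hom_ext _ _ fun W => ?_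
    ext s
    show z.app (σ ⁻¹ᵁ W) (oFun (ψ.app W s)) = 0
    apply eq_zero_of_basicOpen_eq_bot
    rw [← Scheme.preimage_basicOpen, eq_bot_iff]
    intro w hw
    have hwy : y ∈ T.basicOpen (oFun (ψ.app W s)) := by
      have := T.fromSpecResidueField_apply y w
      rw [← this]; exact hw
    have hle : W ⊓ V ≤ W := inf_le_left
    refine (hne (W ⊓ V) inf_le_right (mres P hle s) ?_).elim
    show y ∈ T.basicOpen (oFun (ψ.app (W ⊓ V) (mres P hle s)))
    have hnat : oFun (ψ.app (W ⊓ V) (mres P hle s)) =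
        rres T (σ.preimage_mono hle) (oFun (ψ.app W s)) := app_mres ψ hle s
    rw [hnat, rres, Scheme.basicOpen_res]
    exact ⟨⟨T.basicOpen_le _ hwy, hy⟩, hwy⟩
  have hrq : r ≫ q = 0 := by
    apply ((Scheme.Modules.pullbackPushforwardAdjunction σ).homEquiv P _).injective
    rw [Adjunction.homEquiv_naturality_right, ← hψdef, hzero, Adjunction.homEquiv_unit,
      Functor.map_zero, Limits.comp_zero]
  have hq : q = 0 := by rw [← cancel_epi r, hrq, Limits.comp_zero]
  have h1 : z.app ⊤ (1 : Γ(T, ⊤)) = 0 := congr(Scheme.Modules.Hom.app $hq ⊤ (oSec 1))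
  rw [map_one] at h1
  have : Nontrivial Γ(Spec (T.residueField y), z ⁻¹ᵁ ⊤) :=
    (Scheme.ΓSpecIso (T.residueField y)).commRingCatIsoToRingEquiv.toEquiv.nontrivial
  exact one_ne_zero h1

/-- An endomorphism fixing a rigidification pulls back to the identity. -/
theorem pullback_map_eq_id_of_isRig (hP : HasGens ⊤ P) {ψ : LocalHom ⊤ P (sO σ)} (hψ : IsRig ψ)
    {e : P ⟶ P} (he : (LocalHom.ofHom ⊤ e).comp ψ = ψ) :
    (Scheme.Modules.pullback σ).map e = 𝟙 _ := by
  apply ((Scheme.Modules.pullbackPushforwardAdjunction σ).homEquiv P _).injective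
  rw [Adjunction.homEquiv_unit, Adjunction.homEquiv_unit, Adjunction.unit_naturality]
  simp only [CategoryTheory.Functor.map_id]
  set φ := (Scheme.Modules.pullbackPushforwardAdjunction σ).unit.app P
  set Q := (Scheme.Modules.pullback σ).obj P
  refine Scheme.Modules.hom_ext _ _ fun W => ?_
  ext s
  choose Wg g hxW hWV hg using fun y : T => hP (σ y) trivial
  refine eq_of_cover Q (fun y : T => σ ⁻¹ᵁ (W ⊓ Wg y) ⊓ T.basicOpen (val ψ _ (hWV y) (g y)))
    (fun y => inf_le_left.trans (σ.preimage_mono inf_le_left)) (fun y hy => Opens.mem_iSup.2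
      ⟨y, ⟨hy, hxW y⟩, hψ.mem_basicOpen (hWV y) (hg y) (hxW y)⟩) _ _ fun y => ?_
  set O := σ ⁻¹ᵁ (W ⊓ Wg y) ⊓ T.basicOpen (val ψ _ (hWV y) (g y))
  let R := W ⊓ Wg y
  let g' : Γ(P, R) := mres P inf_le_right (g y)
  obtain ⟨a, ha : a • g' = mres P inf_le_left s⟩ :=
    (hg y R inf_le_right).2 (mres P (inf_le_left : R ≤ W) s)
  obtain ⟨w, hw : w • g' = e.app R g'⟩ := (hg y R inf_le_right).2 (e.app R g')
  have hO : O ≤ σ ⁻¹ᵁ R := inf_le_left
  have hone : rres T hO (σ.app R w) = 1 := by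
    have hu : IsUnit (rres T hO (val ψ R le_top g')) := by
      rw [val_mres ψ R _ inf_le_right (hWV y), rres_rres]
      exact isUnit_rres_of_le _ _ inf_le_right
    have h : val ψ R le_top (e.app R g') = val ψ R le_top g' := congr(($he).app R le_top g')
    rw [← hw, val_smul] at h
    exact hu.mul_eq_right.1 (by rw [← map_mul, h])
  let ap : ∀ S : X.Opens, Γ(P, S) → Γ(Q, σ ⁻¹ᵁ S) := fun S t => φ.app S t
  have hnat : ∀ t : Γ(P, W), ap R (mres P inf_le_left t) =
      mres Q (σ.preimage_mono (inf_le_left : R ≤ W)) (ap W t) := fun t => app_mres φ inf_le_left t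
  have hsm : ∀ (b : Γ(X, R)) (t : Γ(P, R)), ap R (b • t) = σ.app R b • ap R t := fun b t =>
    φ.app_smul b t
  have key : mres Q hO (ap R (e.app R (mres P inf_le_left s))) =
      mres Q hO (ap R (mres P inf_le_left s)) := by
    rw [← ha, e.app_smul, ← hw, hsm, hsm, hsm, mres_smul, mres_smul, mres_smul, hone, one_smul]
  rw [app_mres e, hnat, hnat, mres_mres, mres_mres] at key
  exact key

/-- A rigidification on sections gives a rigidification of the pullback. -/
theorem isIso_of_isRig (hP : HasGens ⊤ P) (ψ : P ⟶ sO σ)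
    (hψ : IsRig (LocalHom.ofHom ⊤ ψ)) :
    IsIso (((Scheme.Modules.pullbackPushforwardAdjunction σ).homEquiv P (oMod T)).symm ψ) := by
  let Q := (Scheme.Modules.pullback σ).obj P
  let r : Q ⟶ oMod T :=
    ((Scheme.Modules.pullbackPushforwardAdjunction σ).homEquiv P (oMod T)).symm ψ
  let φ := (Scheme.Modules.pullbackPushforwardAdjunction σ).unit.app P
  have hrψ : (Scheme.Modules.pullbackPushforwardAdjunction σ).homEquiv P (oMod T) r = ψ :=
    Equiv.apply_symm_apply _ _
  have hrφ : φ ≫ (Scheme.Modules.pushforward σ).map r = ψ :=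
    (Adjunction.homEquiv_unit _ _ _ _).symm.trans hrψ
  choose Wg g hxW hWV hg using fun y : T => hP (σ y) trivial
  let ψ' := LocalHom.ofHom (⊤ : X.Opens) ψ
  let φ' := LocalHom.ofHom (⊤ : X.Opens) φ
  let u : ∀ y, Γ(T, σ ⁻¹ᵁ Wg y) := fun y => val ψ' _ (hWV y) (g y)
  let U : T → T.Opens := fun y => σ ⁻¹ᵁ Wg y ⊓ T.basicOpen (u y)
  let app' : ∀ W : X.Opens, Γ(P, W) → Γ(Q, σ ⁻¹ᵁ W) := fun W s => φ'.app W le_top s
  have hcov : ⊤ ≤ ⨆ y, U y := fun y _ => Opens.mem_iSup.2
    ⟨y, hxW y, hψ.mem_basicOpen (hWV y) (hg y) (hxW y)⟩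
  -- characterising property of the inverse image of `1`
  let Char : ∀ U' : T.Opens, Γ(Q, U') → Prop := fun U' t =>
    ∀ (W : X.Opens) (x : Γ(P, W)) (O : T.Opens) (h₁ : O ≤ U') (h₂ : O ≤ σ ⁻¹ᵁ W),
      mres Q h₂ (app' W x) = rres T h₂ (val ψ' W le_top x) • mres Q h₁ t
  have hu : ∀ y, IsUnit (rres T (inf_le_left : U y ≤ σ ⁻¹ᵁ Wg y) (u y)) := fun y =>
    isUnit_rres_of_le _ _ inf_le_right
  let t : ∀ y, Γ(Q, U y) := fun y =>
    ((hu y).unit⁻¹ : Γ(T, U y)ˣ).1 • mres Q inf_le_left (app' (Wg y) (g y))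
  have hchar : ∀ y, Char (U y) (t y) := by
    intro y W x O h₁ h₂
    let R := W ⊓ Wg y
    obtain ⟨a, ha : a • mres P inf_le_right (g y) = mres P inf_le_left x⟩ :=
      (hg y R inf_le_right).2 (mres P (inf_le_left : R ≤ W) x)
    have hOR : O ≤ σ ⁻¹ᵁ R := fun z hz => ⟨h₂ hz, (inf_le_left : U y ≤ _) (h₁ hz)⟩
    have e1 : mres Q h₂ (app' W x) =
        rres T hOR (σ.app R a) • mres Q (h₁.trans inf_le_left) (app' (Wg y) (g y)) := by
      have n1 : app' R (mres P inf_le_left x) = mres Q (σ.preimage_mono inf_le_left) (app' W x) :=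
        φ'.naturality R W inf_le_left le_top x
      have n2 : app' R (mres P inf_le_right (g y)) =
          mres Q (σ.preimage_mono inf_le_right) (app' (Wg y) (g y)) :=
        φ'.naturality R _ inf_le_right le_top (g y)
      have n3 : app' R (a • mres P inf_le_right (g y)) =
          σ.app R a • app' R (mres P inf_le_right (g y)) := φ'.map_smul R le_top a _
      rw [ha, n1, n2] at n3
      have := congrArg (mres Q hOR) n3
      rwa [mres_mres, mres_smul, mres_mres] at this
    have e2 : rres T h₂ (val ψ' W le_top x) =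
        rres T hOR (σ.app R a) * rres T (h₁.trans inf_le_left) (u y) := by
      have n3 := val_smul ψ' R le_top a (mres P inf_le_right (g y))
      rw [ha, val_mres ψ' R W inf_le_left le_top, val_mres ψ' R _ inf_le_right (hWV y)] at n3
      have := congrArg (rres T hOR) n3
      rwa [map_mul, rres_rres, rres_rres] at this
    rw [e1, e2, mres_smul, mres_mres, smul_smul, mul_assoc,
      ← rres_rres h₁ (inf_le_left : U y ≤ σ ⁻¹ᵁ Wg y) (u y), ← map_mul,
      (hu y).mul_val_inv, map_one, mul_one]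
  obtain ⟨s, hs⟩ := exists_glue Q U (fun _ => le_top) hcov t fun i j => by
    have h1 := hchar i (Wg i) (g i) (U i ⊓ U j) inf_le_left (inf_le_left.trans inf_le_left)
    have h2 := hchar j (Wg i) (g i) (U i ⊓ U j) inf_le_right (inf_le_left.trans inf_le_left)
    rw [h2] at h1
    exact ((isUnit_rres_of_le _ _ (inf_le_left.trans inf_le_right)).smul_left_cancel.1 h1).symm
  have hs' : Char ⊤ s := fun W x O h₁ h₂ => eq_of_cover Q (fun y => O ⊓ U y) (fun _ => inf_le_left)
    (by rw [← inf_iSup_eq]; exact le_inf le_rfl (le_top.trans hcov)) _ _ fun y => by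
      rw [mres_mres, mres_smul, mres_mres, rres_rres,
        ← mres_mres Q inf_le_right le_top s, hs y]
      exact hchar y W x _ inf_le_right (inf_le_left.trans h₂)
  let q : oMod T ⟶ Q := LocalHom.toHom
    { app := fun O _ => AddMonoidHom.mk' (fun a => oFun a • mres Q (le_top : O ≤ ⊤) s)
        (fun a b => add_smul (oFun a) (oFun b) (mres Q (le_top : O ≤ ⊤) s))
      map_smul := fun O _ a b => mul_smul a (oFun b) (mres Q (le_top : O ≤ ⊤) s)
      naturality := fun O' O h _ a => by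
        show rres T h (oFun a) • mres Q _ s = mres Q h (oFun a • mres Q _ s)
        rw [mres_smul, mres_mres] }
  have hrg : ∀ y, r.app (σ ⁻¹ᵁ Wg y) (app' (Wg y) (g y)) = oSec (u y) := fun y =>
    congr(Scheme.Modules.Hom.app $hrφ (Wg y) (g y))
  have hr1 : r.app ⊤ s = oSec 1 := by
    refine eq_of_cover (oMod T) U (fun _ => le_top) hcov _ _ fun y => ?_
    rw [← app_mres r, hs y, r.app_smul, app_mres r, hrg y]
    exact congrArg oSec (((hu y).val_inv_mul).trans (map_one (rres T (le_top : U y ≤ ⊤))).symm)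
  have h1 : q ≫ r = 𝟙 _ := by
    refine Scheme.Modules.hom_ext _ _ fun O => ?_
    ext a
    show r.app O (oFun a • mres Q le_top s) = a
    rw [r.app_smul, app_mres r, hr1]
    have : oFun a * rres T (le_top : O ≤ ⊤) 1 = oFun a := by rw [map_one, mul_one]
    exact congrArg oSec this
  have h2 : r ≫ q = 𝟙 _ := by
    apply ((Scheme.Modules.pullbackPushforwardAdjunction σ).homEquiv P _).injective
    rw [Adjunction.homEquiv_naturality_right, hrψ, Adjunction.homEquiv_unit]
    erw [CategoryTheory.Functor.map_id, Category.comp_id]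
    refine Scheme.Modules.hom_ext _ _ fun W => ?_
    ext x
    have := hs' W x (σ ⁻¹ᵁ W) le_top le_rfl
    rw [mres_self, rres_self] at this
    exact this.symm
  exact ⟨q, h2, h1⟩

variable {π : X ⟶ T}

theorem app_app_of_section (hσπ : σ ≫ π = 𝟙 T) (U : T.Opens) (W : X.Opens) (hW : W ≤ π ⁻¹ᵁ U)
    (hW' : σ ⁻¹ᵁ W ≤ U) (v : Γ(T, U)) : σ.app W (rres X hW (π.app U v)) = rres T hW' v := by
  rw [app_rres]
  have hle : σ ⁻¹ᵁ (π ⁻¹ᵁ U) ≤ U := fun z hz => by
    have hz' : (σ ≫ π) z ∈ U := hz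
    rwa [hσπ] at hz'
  have h : σ.app (π ⁻¹ᵁ U) (π.app U v) = rres T hle v := by
    show (σ ≫ π).app U v = _
    rw [Scheme.Hom.congr_app hσπ U, Scheme.Hom.id_app]
    rfl
  rw [h]
  exact rres_rres _ hle v

/-- Multiplication by a function on the base. -/
def smulHom (π : X ⟶ T) (U : T.Opens) (v : Γ(T, U)) (P : X.Modules) :
    LocalHom (π ⁻¹ᵁ U) P P where
  app W hW := AddMonoidHom.mk' (fun s : Γ(P, W) => rres X hW (π.app U v) • s)
    (fun s t => smul_add _ s t)
  map_smul W hW a s := smul_comm (rres X hW (π.app U v)) a s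
  naturality W' W h hW s := by
    show rres X (h.trans hW) (π.app U v) • mres P h s = mres P h (rres X hW (π.app U v) • s)
    rw [mres_smul, rres_rres]

theorem smulHom_comp (π : X ⟶ T) (U : T.Opens) (v w : Γ(T, U)) (h : v * w = 1) (P : X.Modules) :
    (smulHom π U v P).comp (smulHom π U w P) = LocalHom.id _ P :=
  LocalHom.ext_app fun W hW s => by
    show rres X hW (π.app U w) • rres X hW (π.app U v) • s = s
    rw [smul_smul, ← map_mul, ← map_mul, mul_comm, h, map_one, map_one, one_smul]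

/-- Multiplication by an invertible function on the base. -/
def smulIso (π : X ⟶ T) (U : T.Opens) (v : Γ(T, U)ˣ) (P : X.Modules) :
    LocalIso (π ⁻¹ᵁ U) P P where
  hom := smulHom π U v.1 P
  inv := smulHom π U (v⁻¹ : Γ(T, U)ˣ).1 P
  hom_inv_id := smulHom_comp π U _ _ v.mul_inv P
  inv_hom_id := smulHom_comp π U _ _ v.inv_mul P

/-- Near every point an isomorphism can be corrected to respect the rigidifications. -/
theorem exists_normalised (hσπ : σ ≫ π = 𝟙 T) {U₀ : T.Opens} {Q : X.Modules}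
    (φ : LocalIso (π ⁻¹ᵁ U₀) P Q) (hP : HasGens (π ⁻¹ᵁ U₀) P)
    {ψ : LocalHom (π ⁻¹ᵁ U₀) P (sO σ)} (hψ : IsRig ψ)
    {ψ' : LocalHom (π ⁻¹ᵁ U₀) Q (sO σ)} (hψ' : IsRig ψ') {y : T} (hy : y ∈ U₀) :
    ∃ (U : T.Opens) (hU : U ≤ U₀) (θ : LocalIso (π ⁻¹ᵁ U) P Q), y ∈ U ∧
      θ.hom.comp (ψ'.mono (π.preimage_mono hU)) = ψ.mono (π.preimage_mono hU) := by
  have hpt : ∀ z : T, π (σ z) = z := fun z => by rw [← Scheme.Hom.comp_apply, hσπ]; rfl
  obtain ⟨W, g, hyW, hWV, hg⟩ := hP (σ y) (show π (σ y) ∈ U₀ from (hpt y).symm ▸ hy)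
  -- On a generator the rigidifications take unit values `u` and `u'` near `y`.
  let u : Γ(T, σ ⁻¹ᵁ W) := val ψ W hWV g
  let u' : Γ(T, σ ⁻¹ᵁ W) := val ψ' W hWV (φ.hom.app W hWV g)
  let U : T.Opens := σ ⁻¹ᵁ W ⊓ T.basicOpen u ⊓ T.basicOpen u'
  have hUW : U ≤ σ ⁻¹ᵁ W := inf_le_left.trans inf_le_left
  have hU : U ≤ U₀ := fun z hz => hpt z ▸ hWV (hUW hz)
  have hu : IsUnit (rres T hUW u) := isUnit_rres_of_le _ _ (inf_le_left.trans inf_le_right)
  have hu' : IsUnit (rres T hUW u') := isUnit_rres_of_le _ _ inf_le_right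
  -- Correct the isomorphism by the unit `u / u'` pulled back from the base.
  let v : Γ(T, U)ˣ := hu.unit * hu'.unit⁻¹
  have hV : π ⁻¹ᵁ U ≤ π ⁻¹ᵁ U₀ := π.preimage_mono hU
  refine ⟨U, hU, (smulIso π U v P).trans (φ.mono hV),
    ⟨⟨hyW, hψ.mem_basicOpen hWV hg hyW⟩, hψ'.mem_basicOpen hWV (hg.map φ hWV) hyW⟩, ?_⟩
  refine LocalHom.ext_app fun W' hW' x => ?_
  show val ψ' W' (hW'.trans hV) (φ.hom.app W' (hW'.trans hV) (rres X hW' (π.app U v.1) • x)) =
    val ψ W' (hW'.trans hV) x
  have hW'U : σ ⁻¹ᵁ W' ≤ U := fun z hz => hpt z ▸ hW' hz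
  rw [φ.hom.map_smul, val_smul, app_app_of_section hσπ U W' hW' hW'U]
  let R := W' ⊓ W
  obtain ⟨a, ha : a • mres P inf_le_right g = mres P inf_le_left x⟩ :=
    (hg R inf_le_right).2 (mres P (inf_le_left : R ≤ W') x)
  have hR : σ ⁻¹ᵁ W' ≤ σ ⁻¹ᵁ R := fun z hz => ⟨hz, hUW (hW'U hz)⟩
  have e : val ψ W' (hW'.trans hV) x = rres T hR (σ.app R a) * rres T (hW'U.trans hUW) u := by
    have h := congrArg (val ψ R (inf_le_right.trans hWV)) ha
    rw [val_smul, val_mres ψ R W inf_le_right hWV,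
      val_mres ψ R W' inf_le_left (hW'.trans hV)] at h
    have := congrArg (rres T hR) h.symm
    rwa [map_mul, rres_rres, rres_rres, rres_self] at this
  have e' : val ψ' W' (hW'.trans hV) (φ.hom.app W' (hW'.trans hV) x) =
      rres T hR (σ.app R a) * rres T (hW'U.trans hUW) u' := by
    have h := congrArg (fun p => val ψ' R (inf_le_right.trans hWV)
      (φ.hom.app R (inf_le_right.trans hWV) p)) ha
    simp only [φ.hom.map_smul] at h
    rw [val_smul, φ.hom.naturality R W inf_le_right hWV,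
      φ.hom.naturality R W' inf_le_left (hW'.trans hV), val_mres ψ' R W inf_le_right hWV,
      val_mres ψ' R W' inf_le_left (hW'.trans hV)] at h
    have := congrArg (rres T hR) h.symm
    rwa [map_mul, rres_rres, rres_rres, rres_self] at this
  rw [e, e', ← rres_rres hW'U hUW u, ← rres_rres hW'U hUW u', mul_left_comm, ← map_mul]
  congr 2
  show (hu.unit * hu'.unit⁻¹ : Γ(T, U)ˣ).1 * rres T hUW u' = rres T hUW u
  rw [Units.val_mul, mul_assoc, hu'.val_inv_mul, mul_one]
  rfl

end Fermat.Agent.Jac.ModGlue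

end
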