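import Fermat.Agent.Jac.ModGlue.Rigid

/-!
# Rigidifications and open immersions

In a commutative square of a section `σ` and open immersions, rigidifications restrict and push
forward. -/

set_option autoImplicit false

universe u

noncomputable section

open CategoryTheory Opposite AlgebraicGeometry

namespace Fermat.Agent.Jac.ModGlue

variable {X T Y T' : Scheme.{u}} {σ : T ⟶ X} {σ' : T' ⟶ Y} (g : Y ⟶ X) (h : T' ⟶ T)

/-- A rigidification restricts to smaller opens. -/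
theorem IsRig.mono {P : X.Modules} {V V' : X.Opens} {ψ : LocalHom V P (sO σ)} (hψ : IsRig ψ)
    (hV : V' ≤ V) : IsRig (ψ.mono hV) := fun y hy => by
  obtain ⟨W, hW, s, hs⟩ := hψ y (hV hy)
  refine ⟨W ⊓ V', inf_le_right, mres P inf_le_left s, ?_⟩
  show y ∈ T.basicOpen (val ψ (W ⊓ V') (inf_le_right.trans hV) (mres P inf_le_left s))
  rw [val_mres ψ _ _ inf_le_left hW, rres, Scheme.basicOpen_res]
  exact ⟨⟨T.basicOpen_le _ hs, hy⟩, hs⟩

variable [IsOpenImmersion g]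

/-- Local generators restrict along an open immersion. -/
theorem HasGens.restrict {V : X.Opens} {P : X.Modules} (hP : HasGens V P) (hg : g.opensRange ≤ V) :
    HasGens ⊤ (P.restrict g) := fun x _ => by
  obtain ⟨W, s, hxW, -, hs⟩ := hP (g x) (hg ⟨x, rfl⟩)
  have hle : g ''ᵁ (g ⁻¹ᵁ W) ≤ W := g.image_preimage_le W
  refine ⟨g ⁻¹ᵁ W, mres P hle s, hxW, le_top, fun W' h' => ?_⟩
  have key := hs (g ''ᵁ W') ((Scheme.Hom.image_mono g h').trans hle)
  have hinv : Function.Bijective fun a : Γ(Y, W') => ((g.appIso W').inv a : Γ(X, g ''ᵁ W')) :=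
    ConcreteCategory.bijective_of_isIso (g.appIso W').inv
  refine Eq.mpr (congrArg Function.Bijective (funext fun a => ?_)) (key.comp hinv)
  show ((g.appIso W').inv a : Γ(X, g ''ᵁ W')) • mres P (Scheme.Hom.image_mono g h') (mres P hle s) =
    ((g.appIso W').inv a : Γ(X, g ''ᵁ W')) • mres P _ s
  rw [mres_mres]

/-- In a commutative square `σ' ≫ g = h ≫ σ` the preimage of `W` along `σ'` lies in the preimage of
`g W` along `h ≫ σ`. -/
theorem preimage_comm (hsq : σ' ≫ g = h ≫ σ) (W : Y.Opens) :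
    σ' ⁻¹ᵁ W ≤ h ⁻¹ᵁ (σ ⁻¹ᵁ (g ''ᵁ W)) := fun y hy => by
  show (h ≫ σ) y ∈ g ''ᵁ W
  rw [← hsq]
  exact ⟨σ' y, hy, rfl⟩

theorem appLE_app (hsq : σ' ≫ g = h ≫ σ) (W : Y.Opens) (a : Γ(Y, W)) :
    h.appLE (σ ⁻¹ᵁ (g ''ᵁ W)) (σ' ⁻¹ᵁ W) (preimage_comm g h hsq W)
        (σ.app (g ''ᵁ W) ((g.appIso W).inv a)) = σ'.app W a := by
  have e₁ : σ'.app W = σ'.appLE W (σ' ⁻¹ᵁ W) le_rfl := Scheme.Hom.app_eq_appLE _
  have key : σ.app (g ''ᵁ W) ≫ h.appLE _ _ (preimage_comm g h hsq W) =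
      (g.appIso W).hom ≫ σ'.app W := by
    rw [Scheme.Hom.appIso_hom', e₁, Scheme.Hom.app_eq_appLE, Scheme.Hom.appLE_comp_appLE,
      Scheme.Hom.appLE_comp_appLE]
    simp only [hsq]
  show (σ.app (g ''ᵁ W) ≫ h.appLE _ _ (preimage_comm g h hsq W)) ((g.appIso W).inv a) = _
  rw [key]
  exact congrArg (σ'.app W) congr($((g.appIso W).inv_hom_id) a)

/-- The restriction of a rigidification. -/
def restrictRig (hsq : σ' ≫ g = h ≫ σ) {V : X.Opens} {P : X.Modules} (hg : g.opensRange ≤ V)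
    (ψ : LocalHom V P (sO σ)) : LocalHom ⊤ (P.restrict g) (sO σ') where
  app W _ := AddMonoidHom.mk'
    (fun s : Γ(P, g ''ᵁ W) => oSec (h.appLE _ _ (preimage_comm g h hsq W)
      (val ψ (g ''ᵁ W) ((g.image_le_opensRange _).trans hg) s)))
    (fun s s' => by
      have hadd : val ψ (g ''ᵁ W) ((g.image_le_opensRange _).trans hg) (s + s') =
          val ψ (g ''ᵁ W) ((g.image_le_opensRange _).trans hg) s +
            val ψ (g ''ᵁ W) ((g.image_le_opensRange _).trans hg) s' := map_add (ψ.app _ _) s s'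
      exact congrArg oSec ((congrArg _ hadd).trans (map_add
        (h.appLE _ _ (preimage_comm g h hsq W)).hom _ _)))
  map_smul W _ a s := by
    let s' : Γ(P, g ''ᵁ W) := s
    show oSec (h.appLE _ _ _ (val ψ (g ''ᵁ W) _ (((g.appIso W).inv a : Γ(X, g ''ᵁ W)) • s'))) =
      oSec (σ'.app W a * h.appLE _ _ (preimage_comm g h hsq W)
        (val ψ (g ''ᵁ W) ((g.image_le_opensRange _).trans hg) s'))
    rw [val_smul, map_mul, appLE_app g h hsq]
  naturality W' W hW _ s := by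
    let s' : Γ(P, g ''ᵁ W) := s
    show oSec (h.appLE _ _ _ (val ψ (g ''ᵁ W') _ (mres P (Scheme.Hom.image_mono g hW) s'))) =
      oSec (rres T' (σ'.preimage_mono hW) (h.appLE _ _ (preimage_comm g h hsq W)
        (val ψ (g ''ᵁ W) ((g.image_le_opensRange _).trans hg) s')))
    rw [val_mres ψ _ _ (Scheme.Hom.image_mono g hW) ((g.image_le_opensRange _).trans hg)]
    refine congrArg oSec ?_
    simp only [rres, ← ConcreteCategory.comp_apply]
    rw [Scheme.Hom.map_appLE, Scheme.Hom.appLE_map]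

/-- The restriction of a rigidification along an open immersion is a rigidification. -/
theorem isRig_restrictRig (hsq : σ' ≫ g = h ≫ σ) {V : X.Opens} {P : X.Modules}
    (hg : g.opensRange ≤ V) {ψ : LocalHom V P (sO σ)} (hψ : IsRig ψ) :
    IsRig (restrictRig g h hsq hg ψ) := fun y _ => by
  have hy : σ (h y) = g (σ' y) := by
    show (h ≫ σ) y = (σ' ≫ g) y
    rw [hsq]
  obtain ⟨W, hW, s, hs⟩ := hψ (h y) (hy ▸ hg ⟨_, rfl⟩)
  have hle : g ''ᵁ (g ⁻¹ᵁ W) ≤ W := g.image_preimage_le W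
  refine ⟨g ⁻¹ᵁ W, le_top, mres P hle s, ?_⟩
  have hW' : σ (h y) ∈ W := T.basicOpen_le _ hs
  show y ∈ T'.basicOpen (h.appLE _ _ (preimage_comm g h hsq _)
    (val ψ (g ''ᵁ (g ⁻¹ᵁ W)) ((g.image_le_opensRange _).trans hg) (mres P hle s)))
  rw [val_mres ψ _ _ hle hW, Scheme.Hom.appLE, CommRingCat.comp_apply, Scheme.basicOpen_res,
    ← Scheme.preimage_basicOpen, rres, Scheme.basicOpen_res]
  have hgW : σ' y ∈ g ⁻¹ᵁ W := by
    show g (σ' y) ∈ W
    rwa [← hy]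
  exact ⟨hgW, (show σ (h y) ∈ g ''ᵁ (g ⁻¹ᵁ W) from hy ▸ ⟨σ' y, hgW, rfl⟩), hs⟩

variable [IsOpenImmersion h]

omit [IsOpenImmersion g] in
theorem preimage_le_image_comm (hsq : σ' ≫ g = h ≫ σ) {V W : X.Opens}
    (hV : σ ⁻¹ᵁ V ≤ h.opensRange) (hW : W ≤ V) :
    σ ⁻¹ᵁ W ≤ h ''ᵁ ((σ' ≫ g) ⁻¹ᵁ W) := fun y hy => by
  obtain ⟨z, rfl⟩ := hV (hW hy)
  exact ⟨z, show (σ' ≫ g) z ∈ W by rw [hsq]; exact hy, rfl⟩

/-- The push forward of a rigidification. -/
def pushRig (hsq : σ' ≫ g = h ≫ σ) {V : X.Opens} (hV : σ ⁻¹ᵁ V ≤ h.opensRange) {M : Y.Modules}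
    (ψ : LocalHom ⊤ M (sO σ')) : LocalHom V ((Scheme.Modules.pushforward g).obj M) (sO σ) where
  app W hW := AddMonoidHom.mk'
    (fun s : Γ(M, g ⁻¹ᵁ W) => oSec (rres T (preimage_le_image_comm g h hsq hV hW)
      ((h.appIso ((σ' ≫ g) ⁻¹ᵁ W)).inv (val ψ (g ⁻¹ᵁ W) le_top s))))
    (fun s s' => by
      have hadd : val ψ (g ⁻¹ᵁ W) le_top (s + s') =
          val ψ (g ⁻¹ᵁ W) le_top s + val ψ (g ⁻¹ᵁ W) le_top s' := map_add (ψ.app _ _) s s'
      refine congrArg oSec ?_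
      rw [hadd]
      exact (congrArg _ (map_add (h.appIso ((σ' ≫ g) ⁻¹ᵁ W)).inv.hom _ _)).trans (map_add _ _ _))
  map_smul W hW a s := by
    let s' : Γ(M, g ⁻¹ᵁ W) := s
    show oSec (rres T _ ((h.appIso _).inv (val ψ (g ⁻¹ᵁ W) le_top (g.app W a • s')))) =
      oSec (σ.app W a * rres T (preimage_le_image_comm g h hsq hV hW)
        ((h.appIso ((σ' ≫ g) ⁻¹ᵁ W)).inv (val ψ (g ⁻¹ᵁ W) le_top s')))
    rw [val_smul]
    refine congrArg oSec ((congrArg _ (map_mul (h.appIso ((σ' ≫ g) ⁻¹ᵁ W)).inv.hom _ _)).trans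
      ((map_mul _ _ _).trans ?_))
    congr 1
    show rres T _ ((h.appIso ((σ' ≫ g) ⁻¹ᵁ W)).inv ((σ' ≫ g).app W a)) = σ.app W a
    rw [appIso_inv_app σ (σ' ≫ g) h hsq.symm W a, rres_rres, rres_self]
  naturality W' W hle hW s := by
    let s' : Γ(M, g ⁻¹ᵁ W) := s
    show oSec (rres T _ ((h.appIso _).inv (val ψ (g ⁻¹ᵁ W') le_top
        (mres M (g.preimage_mono hle) s')))) =
      oSec (rres T (σ.preimage_mono hle) (rres T (preimage_le_image_comm g h hsq hV hW)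
        ((h.appIso ((σ' ≫ g) ⁻¹ᵁ W)).inv (val ψ (g ⁻¹ᵁ W) le_top s'))))
    rw [val_mres ψ _ _ (g.preimage_mono hle) le_top, rres_rres]
    refine congrArg oSec ?_
    have := congr($(h.appIso_inv_naturality
      (homOfLE ((σ' ≫ g).preimage_mono hle)).op) (val ψ (g ⁻¹ᵁ W) le_top s'))
    refine (congrArg _ this).trans ?_
    exact rres_rres _ (Scheme.Hom.image_mono h ((σ' ≫ g).preimage_mono hle)) _

/-- The push forward of a rigidification along an open immersion is a rigidification. -/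
theorem isRig_pushRig (hsq : σ' ≫ g = h ≫ σ) {V : X.Opens} (hV : σ ⁻¹ᵁ V ≤ h.opensRange)
    {M : Y.Modules} {ψ : LocalHom ⊤ M (sO σ')} (hψ : IsRig ψ) :
    IsRig (pushRig g h hsq hV ψ) := fun y hy => by
  obtain ⟨z, rfl⟩ := hV hy
  have hz : g (σ' z) = σ (h z) := by
    show (σ' ≫ g) z = (h ≫ σ) z
    rw [hsq]
  obtain ⟨W', hWtop, s, hs⟩ := hψ z trivial
  have hle : g ⁻¹ᵁ (g ''ᵁ W' ⊓ V) ≤ W' := fun x hx => by
    obtain ⟨x', hx', he⟩ := hx.1
    exact g.isOpenEmbedding.injective he ▸ hx'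
  refine ⟨g ''ᵁ W' ⊓ V, inf_le_right, mres M hle s, ?_⟩
  have hzW : σ' z ∈ W' := T'.basicOpen_le _ hs
  have hgz : σ (h z) ∈ g ''ᵁ W' := hz ▸ ⟨σ' z, hzW, rfl⟩
  have hmem : h z ∈ σ ⁻¹ᵁ (g ''ᵁ W' ⊓ V) := ⟨hgz, hy⟩
  show h z ∈ T.basicOpen (rres T (preimage_le_image_comm g h hsq hV inf_le_right)
    ((h.appIso _).inv (val ψ _ le_top (mres M hle s))))
  rw [rres, Scheme.basicOpen_res]
  refine ⟨hmem, ?_⟩
  let u : Γ(T', (σ' ≫ g) ⁻¹ᵁ (g ''ᵁ W' ⊓ V)) :=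
    val ψ (g ⁻¹ᵁ (g ''ᵁ W' ⊓ V)) le_top (mres M hle s)
  refine (Scheme.image_basicOpen h u).le ⟨z, ?_, rfl⟩
  show z ∈ T'.basicOpen (val ψ (g ⁻¹ᵁ (g ''ᵁ W' ⊓ V)) le_top (mres M hle s))
  rw [val_mres ψ _ _ hle le_top, rres, Scheme.basicOpen_res]
  refine ⟨?_, hs⟩
  show g (σ' z) ∈ g ''ᵁ W' ⊓ V
  exact hz ▸ hmem

end Fermat.Agent.Jac.ModGlue

end
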